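import Fermat.Agent.Deform.Residual
import Fermat.Agent.Deform.Burnside
import Fermat.Agent.EC.Rep.Residual

/-!
# The matrices on `E[p]` of an integral model: span, determinant and Frobenius elements
-/

set_option autoImplicit false

noncomputable section

open WeierstrassCurve WeierstrassCurve.Affine Polynomial
open scoped WeierstrassCurve.Affine

namespace Fermat.Agent.RT.Lift59.AtP

open Fermat.Agent.Arith Fermat.Agent.EC.Rep Module

variable (W : WeierstrassCurve ℤ) (p : ℕ) [Fact p.Prime] (hΔ : W.Δ ≠ 0)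

/-- A basis of `E[p]`. -/
def matBasis : Basis (Fin 2) (ZMod p) (residualRep W p hΔ).V :=
  Module.finBasisOfFinrankEq _ _ (residualRep W p hΔ).finrank_eq

/-- The matrices on `E[p]`. -/
def matP : GQ →* Matrix (Fin 2) (Fin 2) (ZMod p) :=
  Deform.matRes (residualRep W p hΔ) (matBasis W p hΔ)

variable {W p}

theorem matP_apply (σ : GQ) :
    matP W p hΔ σ = LinearMap.toMatrixAlgEquiv (matBasis W p hΔ) ((residualRep W p hΔ).ρ σ) := rfl

theorem matP_finiteLevel : ∃ L : IntermediateField ℚ QBar, FiniteDimensional ℚ L ∧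
    ∀ σ : GQ, (∀ z ∈ L, σ z = z) → matP W p hΔ σ = 1 := by
  obtain ⟨L, hL, h⟩ := (residualRep W p hΔ).factorsThroughFiniteLevel
  exact ⟨L, hL, fun σ hσ => by rw [matP_apply, h σ hσ, map_one]⟩

theorem matP_trace (σ : GQ) :
    (matP W p hΔ σ).trace = LinearMap.trace (ZMod p) _ ((residualRep W p hΔ).ρ σ) :=
  (LinearMap.trace_eq_matrix_trace (ZMod p) (matBasis W p hΔ) _).symm

theorem matP_det (σ : GQ) : (matP W p hΔ σ).det = (cyclotomicHom p σ : ZMod p) := by
  rw [cyclotomicHom_apply, ← det_residualRep hΔ]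
  exact LinearMap.det_toMatrix (matBasis W p hΔ) _

theorem matP_span (hp2 : p ≠ 2) (hirr : W.ModRepIsIrreducible p) :
    Submodule.span (ZMod p) (Set.range (matP W p hΔ)) = ⊤ :=
  Deform.span_matrix_eq_top (residualRep W p hΔ)
    (isAbsolutelyIrreducible_residualRep hΔ hp2 hirr) (matBasis W p hΔ)

theorem matP_frobenius {l : ℕ} (hl : l.Prime) (hgood : W.IsGoodPrimeFor l)
    (hne : l ≠ p) {A : ValuationSubring QBar} (hA : A.LiesOverPrime l) {σ : GQ}
    (hσ : A.IsFrobeniusAt σ l) :
    (matP W p hΔ σ).trace = (W.apOfModel l : ZMod p) ∧ (matP W p hΔ σ).det = (l : ZMod p) := by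
  have h := charpoly_residualRep_frobenius hΔ hl hgood hne hA hσ
  rw [EC.FrobTrace.charpoly_of_finrank_eq_two (residualRep W p hΔ).finrank_eq] at h
  have h1 := congrArg (fun f => Polynomial.coeff f 1) h
  have h0 := congrArg (fun f => Polynomial.coeff f 0) h
  simp only [coeff_add, coeff_sub, coeff_X_pow, Polynomial.coeff_C_mul, coeff_X_one, coeff_X_zero,
    coeff_C, mul_one, mul_zero] at h1 h0
  norm_num at h1 h0
  exact ⟨by rw [matP_trace]; exact h1, (LinearMap.det_toMatrix (matBasis W p hΔ) _).trans h0⟩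

end Fermat.Agent.RT.Lift59.AtP

end
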