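import Fermat.Agent.RT.Lift59.PrimesProof
import Fermat.Agent.RT.Lift59.Galois.NodeBound

/-!
# Proof of the auxiliary primes statement of the lifting argument
-/

set_option autoImplicit false

noncomputable section

namespace Fermat.Agent.RT.Lift59

/-- **Auxiliary primes for the classes of the lifting argument.** -/
theorem primesInput : PrimesInput :=
  primesInput_of_node Galois.nodeBoundInput

end Fermat.Agent.RT.Lift59

end
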