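import Fermat.Agent.RT.Lift59.Statements
import Fermat.Agent.RT.Frey.Inputs

/-!
# Modularity lifting from the stages
-/

set_option autoImplicit false

noncomputable section

open WeierstrassCurve

namespace Fermat.Agent.RT.Lift59

/-- Dividing the level by one of its primes keeps it admissible. -/
theorem SeedLevel.div {W : WeierstrassCurve ℤ} {p M q : ℕ} (h : SeedLevel W p M) (hq : q.Prime)
    (hqM : q ∣ M) (hres : W.IsResiduallyModularOfLevel p (M / q)) : SeedLevel W p (M / q) :=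
  ⟨Nat.div_pos (Nat.le_of_dvd h.pos hqM) hq.pos, hres,
    fun hd => h.sq_p (hd.trans (Nat.div_dvd_of_dvd hqM)),
    fun v hv hvp hd => h.cube v hv hvp (hd.trans (Nat.div_dvd_of_dvd hqM))⟩

/-- A squarefree level can be brought down to ramified primes. -/
theorem exists_minimal_of_squarefree (hMz : MazurInput) (hP : AtPInput) (hSc : ScalarInput)
    {W : WeierstrassCurve ℤ} {p : ℕ} (hs : Setting W p) :
    ∀ M : ℕ, SeedLevel W p M → Squarefree M →
      ∃ M' : ℕ, M' ∣ M ∧ SeedLevel W p M' ∧ Squarefree M' ∧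
        ∀ v : ℕ, v.Prime → v ∣ M' → ¬ SmallAt W p v := by
  classical
  have hp : p.Prime := hs.hp.1
  intro M
  induction M using Nat.strong_induction_on with
  | _ M ih =>
    intro hM hsf
    have step : ∀ q : ℕ, q.Prime → q ∣ M → W.IsResiduallyModularOfLevel p (M / q) →
        ∃ M' : ℕ, M' ∣ M ∧ SeedLevel W p M' ∧ Squarefree M' ∧
          ∀ v : ℕ, v.Prime → v ∣ M' → ¬ SmallAt W p v := fun q hq hqM h => by
      obtain ⟨M', hd, h'⟩ := ih (M / q) (Nat.div_lt_self hM.pos hq.one_lt) (hM.div hq hqM h)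
        (hsf.squarefree_of_dvd (Nat.div_dvd_of_dvd hqM))
      exact ⟨M', hd.trans (Nat.div_dvd_of_dvd hqM), h'⟩
    by_cases h2 : ∃ q : ℕ, q.Prime ∧ q ≠ p ∧ q ∣ M ∧ SmallAt W p q ∧ ¬ ScalarAt W p q
    · obtain ⟨q, hq, hqp, hqM, hsm, hns⟩ := h2
      exact step q hq hqM (hMz W p M q hs hM hq hqp hqM
        (fun hd => hq.one_lt.ne' (Nat.isUnit_iff.1 (hsf q (by rwa [← sq])))) hsm hns)
    push Not at h2
    by_cases h3 : p ∣ M ∧ SmallAt W p p
    · exact step p hp h3.1 (hP W p M hs hM hsf h3.1 h3.2)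
    push Not at h3
    by_cases h4 : ∃ q : ℕ, q.Prime ∧ q ≠ p ∧ q ∣ M ∧ SmallAt W p q
    · obtain ⟨q, hq, hqp, hqM, hsm⟩ := h4
      exact step q hq hqM (hSc W p M q hs hM hsf h2 h3 hq hqp hqM hsm)
    push Not at h4
    refine ⟨M, dvd_rfl, hM, hsf, fun v hv hvM => ?_⟩
    by_cases hvp : v = p
    · subst hvp; exact h3 hvM
    · exact h4 v hv hvp hvM

/-- The level can be brought down to ramified primes. -/
theorem exists_minimal (hSq : SquareInput) (hMz : MazurInput) (hP : AtPInput) (hSc : ScalarInput)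
    {W : WeierstrassCurve ℤ} {p : ℕ} (hs : Setting W p) :
    ∀ M : ℕ, SeedLevel W p M →
      ∃ M' : ℕ, SeedLevel W p M' ∧ Squarefree M' ∧ ∀ v : ℕ, v.Prime → v ∣ M' → ¬ SmallAt W p v := by
  classical
  have hp : p.Prime := hs.hp.1
  intro M
  induction M using Nat.strong_induction_on with
  | _ M ih =>
    intro hM
    have step : ∀ q : ℕ, q.Prime → q ∣ M → W.IsResiduallyModularOfLevel p (M / q) →
        ∃ M' : ℕ, SeedLevel W p M' ∧ Squarefree M' ∧
          ∀ v : ℕ, v.Prime → v ∣ M' → ¬ SmallAt W p v := fun q hq hqM h =>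
      ih (M / q) (Nat.div_lt_self hM.pos hq.one_lt) (hM.div hq hqM h)
    by_cases h1 : ∃ q : ℕ, q.Prime ∧ q ≠ p ∧ q ^ 2 ∣ M
    · obtain ⟨q, hq, hqp, hqM⟩ := h1
      exact step q hq ((dvd_pow_self q two_ne_zero).trans hqM) (hSq W p M q hs hM hq hqp hqM)
    push Not at h1
    have hsf : Squarefree M := Nat.squarefree_iff_prime_squarefree.2 fun v hv hd => by
      rw [← sq] at hd
      by_cases hvp : v = p
      · exact hM.sq_p (hvp ▸ hd)
      · exact h1 v hv hvp hd
    exact (exists_minimal_of_squarefree hMz hP hSc hs M hM hsf).imp fun _ h => h.2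

/-- **Milestone statement 59 from the stages.** -/
theorem liftingInput (hSq : SquareInput) (hMz : MazurInput) (hP : AtPInput) (hSc : ScalarInput)
    (hL : LiftInput) (hC : ConductorInput) : Frey.LiftingInput := by
  intro p hp W hΔ hW hirr M₀ hM₀0 hres₀ hM₀ hM₀3
  have hpp : p.Prime := by rcases hp with rfl | rfl <;> norm_num
  have hs : Setting W p := ⟨⟨hpp, by rcases hp with rfl | rfl <;> norm_num⟩, hΔ, hW, hirr⟩
  have := Fact.mk hpp
  obtain ⟨M, hM, hsf, hram⟩ := exists_minimal hSq hMz hP hSc hs M₀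
    ⟨Nat.pos_of_ne_zero (NeZero.ne M₀), hres₀, hM₀, hM₀3⟩
  obtain ⟨N, hN0, hN3, hp2N, hbad, hmod⟩ := hL W p M hs hM hsf hram
  exact ⟨W.conductorLevel, W.conductorLevel_pos, W.squarefree_conductorLevel,
    fun q hq => W.prime_dvd_conductorLevel_iff hΔ hq,
    hC W hW N p (by rcases hp with rfl | rfl <;> norm_num) hirr hp2N hmod hbad hN3⟩

end Fermat.Agent.RT.Lift59

end
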