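import Fermat.Prelude.Def_FLTPrelim_GaloisRep
import Fermat.Prelude.Def_FLTPrelim_Modularity
import Fermat.Prelude.Def_FLTPrelim_ModularRep
import Fermat.Prelude.Def_FLTPrelim_Ramification
import Fermat.Prelude.Def_WeierstrassCurve_ConductorLevel
import Fermat.Prelude.Def_WeierstrassCurve_Mlc1RowStatement

/-!
# Modularity lifting at an odd prime `p`: the stages

For a semistable model `W` with irreducible `p`-torsion and a level of residual modularity, the
level is brought down to the primes at which the residual representation is ramified, in four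
kinds of steps, and the lifting theorem is then applied at that level.
-/

set_option autoImplicit false

noncomputable section

open WeierstrassCurve WeierstrassCurve.Affine
open scoped WeierstrassCurve.Affine

namespace Fermat.Agent.RT.Lift59

/-- The residual representation is unramified at `q ≠ p`, resp. finite at `q = p`, for a
semistable model: `p` divides the exponent of `q` in the discriminant. It holds at good primes. -/
def SmallAt (W : WeierstrassCurve ℤ) (p q : ℕ) : Prop := p ∣ padicValInt q W.Δ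

/-- `q ≡ 1 (mod p)` and the Frobenius elements at `q` act on the `p`-torsion by scalars. -/
def ScalarAt (W : WeierstrassCurve ℤ) (p q : ℕ) : Prop :=
  (q : ZMod p) = 1 ∧ ∀ A : ValuationSubring (AlgebraicClosure ℚ), A.LiesOverPrime q →
    ∀ σ : AlgebraicClosure ℚ ≃ₐ[ℚ] AlgebraicClosure ℚ, A.IsFrobeniusAt σ q →
      ∃ c : ℤ, ∀ x : ((W.map (Int.castRingHom ℚ))⁄(AlgebraicClosure ℚ)).Point,
        (p : ℤ) • x = 0 → σ • x = c • x

/-- The standing hypotheses. -/
structure Setting (W : WeierstrassCurve ℤ) (p : ℕ) : Prop where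
  hp : p.Prime ∧ p ≠ 2
  hΔ : W.Δ ≠ 0
  hW : W.IsSemistableModel
  hirr : W.ModRepIsIrreducible p

/-- A level of residual modularity of the kind allowed in milestone statement 59. -/
structure SeedLevel (W : WeierstrassCurve ℤ) (p M : ℕ) : Prop where
  pos : 0 < M
  res : W.IsResiduallyModularOfLevel p M
  sq_p : ¬ p ^ 2 ∣ M
  cube : ∀ q : ℕ, q.Prime → q ≠ p → ¬ q ^ 3 ∣ M

/-- At `q² ∥ M` with `q ≠ p` the exponent of `q` drops. -/
def SquareInput : Prop := ∀ (W : WeierstrassCurve ℤ) (p M q : ℕ), Setting W p → SeedLevel W p M →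
  q.Prime → q ≠ p → q ^ 2 ∣ M → W.IsResiduallyModularOfLevel p (M / q)

/-- The principle of Mazur at `q ≠ p`. -/
def MazurInput : Prop := ∀ (W : WeierstrassCurve ℤ) (p M q : ℕ), Setting W p → SeedLevel W p M →
  q.Prime → q ≠ p → q ∣ M → ¬ q ^ 2 ∣ M → SmallAt W p q → ¬ ScalarAt W p q →
  W.IsResiduallyModularOfLevel p (M / q)

/-- The principle of Mazur at `p`. -/
def AtPInput : Prop := ∀ (W : WeierstrassCurve ℤ) (p M : ℕ), Setting W p → SeedLevel W p M →
  Squarefree M → p ∣ M → SmallAt W p p → W.IsResiduallyModularOfLevel p (M / p)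

/-- Level lowering by patching at the scalar primes, when they are the only ones left to remove. -/
def ScalarInput : Prop := ∀ (W : WeierstrassCurve ℤ) (p M q : ℕ), Setting W p → SeedLevel W p M →
  Squarefree M →
  (∀ v : ℕ, v.Prime → v ≠ p → v ∣ M → SmallAt W p v → ScalarAt W p v) →
  (p ∣ M → ¬ SmallAt W p p) →
  q.Prime → q ≠ p → q ∣ M → SmallAt W p q → W.IsResiduallyModularOfLevel p (M / q)

/-- Modularity of the curve from a level all whose primes are ramified. -/
def LiftInput : Prop := ∀ (W : WeierstrassCurve ℤ) (p M : ℕ), Setting W p → SeedLevel W p M →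
  Squarefree M → (∀ v : ℕ, v.Prime → v ∣ M → ¬ SmallAt W p v) →
  ∃ N : ℕ, 0 < N ∧ (∀ v : ℕ, v.Prime → ¬ v ^ 3 ∣ N) ∧ ¬ p ^ 2 ∣ N ∧
    (∀ v : ℕ, v.Prime → (v : ℤ) ∣ W.Δ → v ∣ N) ∧ W.IsModularModelOfLevel N

/-- The proposition of milestone statement 58. -/
def ConductorInput : Prop := ∀ (W : WeierstrassCurve ℤ) (_hss : W.IsSemistableModel) (N p : ℕ)
  [Fact p.Prime] (_hp2 : p ≠ 2) (_hirr : W.ModRepIsIrreducible p) (_hp2N : ¬ p ^ 2 ∣ N)
  (_hN : W.IsModularModelOfLevel N) (_hbad : ∀ ℓ : ℕ, ℓ.Prime → (ℓ : ℤ) ∣ W.Δ → ℓ ∣ N)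
  (_hN3 : ∀ q : ℕ, q.Prime → ¬ q ^ 3 ∣ N),
  W.IsModularModelOfLevel W.conductorLevel

end Fermat.Agent.RT.Lift59

end
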