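import Fermat.Agent.CFT.Tangent.LocalBounds
import Fermat.Agent.RT.Assembly.Tangent

/-!
# Classes trivial at a prime of multiplicative type

At a prime `q ≠ p` at which the residual representation is unramified with nonscalar Frobenius
`F`, a class killing a tame generator `T` and orthogonal to the Frobenius is a coboundary on the
decomposition group.
-/

set_option autoImplicit false

noncomputable section

namespace Fermat.Agent.RT.Lift59

open Fermat.Agent.Deform Fermat.Agent.CFT.Tangent Fermat.Agent.Arith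

/-- **The node classes**: zero at `T` and orthogonal to `F` implies locally trivial. -/
theorem mem_cobdOn_of_node {k : Type} [Field k] {p : ℕ} [Fact p.Prime] [CharP k p]
    (h2 : (2 : k) ≠ 0) {r : Gal →* M2 k} (hr : GaloisFactorsThroughFiniteLevel r)
    {q : ℕ} [Fact q.Prime] (hqp : q ≠ p)
    (hinert : ∀ g ∈ (padicPlace q).inertiaSubgroupIn ℚ, r g = 1)
    {F : Gal} (hF : (padicPlace q).IsFrobeniusAt F q) (hns : ∀ c : k, r F ≠ c • 1)
    {T : Gal} (hT : T ∈ (padicPlace q).inertiaSubgroupIn ℚ) {π : QBar} (hπ : π ≠ 0) {m : ℤ}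
    (hπord : Mazur.Eisenstein.ordAt (padicPlace q) q π = m / p)
    (hπT : EC.Reduction.res (padicPlace q) (T π / π) ≠ 1)
    (hπTp : EC.Reduction.res (padicPlace q) (T π / π) ^ p = 1)
    {b : Gal → M2 k} (hb : IsAdCocycle r b) (hfin : IsFiniteLevel b)
    (htrF : (b F).trace = 0) (hbT : b T = 0) (hbF : (b F * r F).trace = 0) :
    b ∈ cobdOn r ((padicPlace q).decompositionSubgroup ℚ) := by
  obtain ⟨X, hX⟩ := exists_cobdLin_eq h2 hns htrF hbF
  obtain ⟨Y, hY, hYs⟩ := cobdLin_mem_cobdOn (r := r) h2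
    ((padicPlace q).decompositionSubgroup ℚ) X
  refine ⟨Y, hY, fun s hs => ?_⟩
  have hcob : ∀ g, r g = 1 → cobdLin r X g = 0 := fun g h1 => by
    have h1' : r g⁻¹ = 1 := by have h := CFT.Tangent.map_inv_mul r g; rwa [h1, mul_one] at h
    rw [cobdLin_apply, h1, h1', one_mul, mul_one, sub_self]
  have hc : IsAdCocycle r (b - cobdLin r X) := fun g g' => by
    simp only [Pi.sub_apply, hb g g', isAdCocycle_cobdLin r X g g', mul_sub, sub_mul]
    abel
  have hlev : IsFiniteLevel (b - cobdLin r X) := by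
    obtain ⟨L₁, hL₁, hL₁'⟩ := hfin
    obtain ⟨L₂, hL₂, hL₂'⟩ := hr
    refine ⟨L₁ ⊔ L₂, IntermediateField.finiteDimensional_sup L₁ L₂, fun g hg => ?_⟩
    rw [Pi.sub_apply, hL₁' g fun x hx => hg x ((le_sup_left : L₁ ≤ L₁ ⊔ L₂) hx),
      hcob g (hL₂' g fun x hx => hg x ((le_sup_right : L₂ ≤ L₁ ⊔ L₂) hx)), sub_zero]
  have h := Assembly.eq_zero_on_decomposition (p := p) hr hc hlev hqp hinert hT hπ hπord hπT hπTp
    (by rw [Pi.sub_apply, hbT, hcob T (hinert T hT), sub_zero]) hF
    (by rw [Pi.sub_apply, hX, sub_self]) hs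
  rw [Pi.sub_apply, sub_eq_zero] at h
  rw [h]
  exact hYs s hs

end Fermat.Agent.RT.Lift59
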