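import Fermat.Agent.RT.Strict.Statement
import Fermat.Agent.RT.Lift59.Galois.PlaceP

/-!
# Auxiliary primes for the tangent classes of the lifting argument

The places are: `Z` (ramified, unipotent), `V` (scalar Frobenius, classes vanish on decomposition
groups), `U` (unramified, classes trivial on decomposition groups) and `p` (flat, strictly
ordinary, or strictly ordinary and zero at the inertia element `τ` of `IsTauStar`).
-/

set_option autoImplicit false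

noncomputable section

namespace Fermat.Agent.RT.Lift59

open Fermat.Agent.Deform Fermat.Agent.CFT.Tangent Fermat.Agent.Arith Module Polynomial
open Fermat.Agent.RT.Strict

/-- The condition at `p`. -/
inductive AtP : Type
  | flat
  | strict
  | node (τ : Gal)

/-- A class satisfying a condition at `p`. -/
def AtP.Holds {k : Type} [Field k] (c : AtP) (p : ℕ) [Fact p.Prime] (r : Gal →* M2 k) (b : Gal → M2 k) : Prop :=
  match c with
  | .flat => IsFlatClass p r b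
  | .strict => IsOrdClass p r b
  | .node τ => IsOrdClass p r b ∧ b τ = 0

/-- The requirement on the element of the condition `node`. -/
def AtP.Ok {k : Type} [Field k] (c : AtP) (p : ℕ) [Fact p.Prime] (r : Gal →* M2 k) : Prop :=
  match c with
  | .node τ => Galois.IsTauStar (padicPlace p) p τ ∧ r τ = 1
  | _ => True

/-- What the condition `node` saves. -/
def AtP.saved : AtP → ℕ
  | .node _ => 1
  | _ => 0

/-- A space of trace zero classes of finite level without coboundaries, with the conditions. -/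
structure IsLiftSpace {k : Type} [Field k] (p : ℕ) [Fact p.Prime] (r : Gal →* M2 k) (Z V U : Finset ℕ) (c : AtP)
    {R : ℕ} (q : Fin R → ℕ) (W : Submodule k (Gal → M2 k)) : Prop where
  cocycle : ∀ b ∈ W, IsAdCocycle r b
  level : ∀ b ∈ W, IsFiniteLevel b
  trace : ∀ b ∈ W, ∀ σ, (b σ).trace = 0
  disjoint : ∀ b ∈ W, ∀ X, b = cobdLin r X → b = 0
  unramified : ∀ b ∈ W, ∀ ℓ : ℕ, ℓ.Prime → ℓ ≠ p → ℓ ∉ Z → ℓ ∉ V → ℓ ∉ U → (∀ i, ℓ ≠ q i) →
    ∀ A : ValuationSubring QBar, A.LiesOverPrime ℓ → ∀ τ ∈ A.inertiaSubgroupIn ℚ, b τ = 0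
  unipotent : ∀ b ∈ W, ∀ v ∈ Z, ∀ A : ValuationSubring QBar, A.LiesOverPrime v →
    ∀ τ ∈ A.inertiaSubgroupIn ℚ, (b τ * r τ).trace = 0
  vanishing : ∀ b ∈ W, ∀ (v : ℕ) [Fact v.Prime], v ∈ V →
    ∀ g ∈ (padicPlace v).decompositionSubgroup ℚ, b g = 0
  trivial : ∀ b ∈ W, ∀ (v : ℕ) [Fact v.Prime], v ∈ U →
    b ∈ cobdOn r ((padicPlace v).decompositionSubgroup ℚ)
  atP : ∀ b ∈ W, b ≠ 0 → c.Holds p r b

/-- Auxiliary primes bounding the classes with these conditions. -/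
def PrimesInput : Prop :=
  ∀ (k : Type) [Field k] [Finite k] (p : ℕ) [Fact p.Prime] [CharP k p] (_ : p ≠ 2)
    (r : Gal →* M2 k), CFT.TWPrimes.TWHyp r → GaloisFactorsThroughFiniteLevel r →
    (∀ (σ : Gal) (a : ℕ), (∀ μ : QBar, μ ^ p = 1 → σ μ = μ ^ a) → (r σ).det = (a : k)) →
    ∀ Z V U : Finset ℕ, Disjoint Z V → Disjoint Z U → Disjoint V U →
    (∀ v ∈ Z ∪ V ∪ U, v.Prime ∧ v ≠ p) →
    (∀ ℓ : ℕ, ℓ.Prime → ℓ ≠ p → ℓ ∉ Z → ∀ A : ValuationSubring QBar, A.LiesOverPrime ℓ →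
      ∀ τ ∈ A.inertiaSubgroupIn ℚ, r τ = 1) →
    (∀ v ∈ Z, ∀ A : ValuationSubring QBar, A.LiesOverPrime v →
      (∀ τ ∈ A.inertiaSubgroupIn ℚ, (r τ).trace = 2 ∧ (r τ).det = 1) ∧
        ∃ τ ∈ A.inertiaSubgroupIn ℚ, r τ ≠ 1) →
    (∀ v ∈ V, ∀ A : ValuationSubring QBar, A.LiesOverPrime v → ∀ F : Gal, A.IsFrobeniusAt F v →
      ∃ c : k, r F = c • 1) →
    ∀ S₀ : Finset ℕ, ∃ R : ℕ, ∀ n : ℕ, ∃ q : Fin R → ℕ, Function.Injective q ∧
      (∀ i, (q i).Prime ∧ q i ∉ S₀ ∧ q i ∉ Z ∪ V ∪ U ∧ q i ≠ p ∧ p ^ (n + 1) ∣ q i - 1) ∧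
      (∀ i, ∀ A : ValuationSubring QBar, A.LiesOverPrime (q i) → ∀ F : Gal,
        A.IsFrobeniusAt F (q i) → ∃ α β : k, α ≠ β ∧ (r F).charpoly = (X - C α) * (X - C β)) ∧
      ∀ c : AtP, c.Ok p r → ∀ W : Submodule k (Gal → M2 k), Module.Finite k W → IsLiftSpace p r Z V U c q W →
        finrank k W + 3 * V.card + U.card + c.saved ≤ R

end Fermat.Agent.RT.Lift59

end
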