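import Fermat.Agent.RT.Lift59.Galois.NotReadyProof
import Fermat.Agent.RT.Lift59.Curve.Tate
import Fermat.Agent.RT.Lift59.Curve.AtP
import Fermat.Agent.RT.Lift59.Curve.Level
import Fermat.Agent.RT.Assembly.Coeff

/-!
# Modularity of a semistable model from a level all whose primes are ramified

The fixed data of the lifting argument are built from the Tate module of the model over a large
coefficient ring; were the model not modular at the product of its bad primes and `p`, they would
be ready.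
-/

set_option autoImplicit false
set_option linter.style.haveILetI false
set_option linter.unusedSectionVars false

noncomputable section

open WeierstrassCurve CongruenceSubgroup ModularFormClass IsLocalRing

namespace Fermat.Agent.RT.Lift59

open Fermat.Agent.Deform (M2 IsCont mapM toRep Gal matRes)
open Fermat.Agent.Arith (QBar)
open Fermat.Agent.CFT.Local (padicPlace_liesOverPrime)

section

variable {W : WeierstrassCurve ℤ} {p : ℕ} [Fact p.Prime] [Fact (p ≠ 2)]
  {O : Type} [CommRing O] [IsDomain O] [IsDiscreteValuationRing O]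
  [IsAdicComplete (maximalIdeal O) O] [Finite (ResidueField O)] [CharZero O]
  [CharP (ResidueField O) p] [Algebra (ZMod p) (ResidueField O)]
  (hs : Setting W p) (C : Curve.CurveRep W p hs.hΔ O)
  {M : ℕ} (hM : SeedLevel W p M) (hsq : Squarefree M)
  (hbig : ∀ v : ℕ, v.Prime → v ∣ M → ¬ SmallAt W p v)

/-- The fixed data of a semistable model. -/
def fixedOf : Levels.Fixed O p where
  L := Curve.baseLevel W p
  t := Curve.numFlips W p
  v := Curve.flip W p
  v_prime := Curve.flip_prime hs.hΔ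
  v_inj _ hi _ hj h := Curve.flip_inj hi hj h
  v_not_dvd _ hi := Curve.flip_not_dvd hs.hΔ hi
  L_sqf := Curve.squarefree_baseLevel hs.hΔ
  ρbar := wRho W p hs.hΔ (ResidueField O)
  habs := isAbsolutelyIrreducible_wRho Fact.out hs.hirr
  abar := wAbar W (ResidueField O)
  congr := Curve.isCongruentLevel_baseLevel hs.hΔ hM hsq hbig
  frob := Curve.hasCharpolys_wRho hs.hΔ
  eis := Curve.exists_wAbar_ne_of_dvd Fact.out hs.hΔ hs.hirr
  three := Curve.three_or_exists_wAbar_ne hs
  rhoE := C.rho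
  cont := C.cont
  bb := C.bb
  res := C.res
  detE := C.detE
  unrE ℓ hℓ hd := C.unr ℓ hℓ (fun h => hd (h ▸ dvd_mul_left _ _))
    fun h => hd (((Curve.dvd_baseLevel_mul_iff hs.hΔ hℓ).2 h).mul_right _)

local notation "F₀" => fixedOf hs C hM hsq hbig

theorem dvd_base_fixedOf {v : ℕ} (hv : v.Prime) :
    v ∣ (F₀).base (F₀).t ↔ (v : ℤ) ∣ W.Δ := by
  rw [Levels.Fixed.base_eq]
  exact Curve.dvd_baseLevel_mul_iff hs.hΔ hv

theorem rb_fixedOf : (F₀).rig.rb = wMat C.bb := Levels.Fixed.rig_rb _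

theorem mem_flip_fixedOf {i : ℕ} (hi : i < (F₀).t) :
    ((F₀).v i).Prime ∧ ((F₀).v i : ℤ) ∣ W.Δ ∧ SmallAt W p ((F₀).v i) :=
  (Curve.mem_smallPrimes hs.hΔ).1 (Curve.flip_mem hi)

include hs in
theorem not_dvd_c₄ {v : ℕ} (hv : v.Prime) (hd : (v : ℤ) ∣ W.Δ) : ¬ (v : ℤ) ∣ W.c₄ := hs.hW v hv hd

theorem hyp_fixedOf : (F₀).Hyp where
  p_first i hi h := Curve.flip_p_first hi h
  unrV i hi hip A hA σ hσ := by
    rw [rb_fixedOf]
    exact wMat_inertia_eq_one C.bb Fact.out hs.hW ((F₀).v_prime i) hip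
      (mem_flip_fixedOf hs C hM hsq hbig hi).2.2 hA hσ
  unipE v hv hd hvp A hA σ hσ :=
    C.trInert v hv hvp (fun h => not_dvd_c₄ hs hv h.2 h.1) A hA σ hσ
  trFr i hi hip A hA Fr hFr :=
    have h := mem_flip_fixedOf hs C hM hsq hbig hi
    C.trBad _ h.1 hip h.2.1 (not_dvd_c₄ hs h.1 h.2.1) A hA Fr hFr
  ordP hd :=
    have hΔ := (dvd_base_fixedOf hs C hM hsq hbig Fact.out).1 hd
    (C.strictP hΔ (not_dvd_c₄ hs Fact.out hΔ)).isOrdinaryAt
  strictP hd w i hw hv Fp hFp :=
    have hΔ := (dvd_base_fixedOf hs C hM hsq hbig Fact.out).1 hd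
    Curve.zAt_sq_eq_one Fact.out C.detE (C.strictP hΔ (not_dvd_c₄ hs Fact.out hΔ)) hw hv
      (Arith.mem_decomposition_iff.2 (Arith.isFrobeniusAt_iff_forall_mem.mp hFp).1)
  tauV i hi hip τ hτ := by
    have h := mem_flip_fixedOf hs C hM hsq hbig hi
    rw [hip] at h
    rw [rb_fixedOf]
    exact (Curve.wMat_tauStar_eq_one_iff Fact.out hs.hW h.2.1 C.bb hτ).2 h.2.2

/-- **The fixed data of a model which is not modular at a squarefree multiple of its bad primes
are ready.** -/
theorem ready_fixedOf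
    (hquad : ∀ f : Polynomial (ZMod p), f.natDegree = 2 →
      ∃ x : ResidueField O, (f.map (algebraMap (ZMod p) (ResidueField O))).IsRoot x)
    (hnot : ∀ N : ℕ, Squarefree N → p ∣ N → (∀ v : ℕ, v.Prime → (v : ℤ) ∣ W.Δ → v ∣ N) →
      ¬ W.IsModularModelOfLevel N) : (F₀).Ready where
  hyp := hyp_fixedOf hs C hM hsq hbig
  tw := by
    rw [rb_fixedOf]
    exact twHyp_wMat C.bb Fact.out hs.hW hs.hirr hquad
  ramL v hv hvL hvp A hA := by
    rw [rb_fixedOf]
    exact exists_wMat_inertia_ne_one C.bb Fact.out hs.hW hv hvp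
      ((Curve.dvd_baseLevel_iff hs.hΔ hv).1 hvL).2 hA
  tauL hd τ hτ := by
    have h := (Curve.dvd_baseLevel_iff hs.hΔ Fact.out).1 hd
    rw [rb_fixedOf, Ne, Curve.wMat_tauStar_eq_one_iff Fact.out hs.hW h.1 C.bb hτ]
    exact h.2
  flatE hd := C.flatP fun h => hd ((dvd_base_fixedOf hs C hM hsq hbig Fact.out).2 h)
  unitRoot i hi hip := by
    have h := mem_flip_fixedOf hs C hM hsq hbig hi
    rw [hip] at h
    intro N _ g hg hN φ T hout c hc
    rw [hip] at hN hc
    exact Curve.unitRoot_wAbar hs h.2.1 N g hg hN φ T hout c hc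
  noSystem := by
    intro g hg σ hσ
    by_contra hno
    push Not at hno
    have hp : p.Prime := Fact.out
    set B := (F₀).base (F₀).t with hB
    have hBsq : Squarefree B := (F₀).base_sqf le_rfl
    set N := if p ∣ B then B else B * p with hN
    have hNsq : Squarefree N := by
      rw [hN]
      split_ifs with h
      · exact hBsq
      · exact (Nat.squarefree_mul ((hp.coprime_iff_not_dvd.2 h).symm)).2 ⟨hBsq, hp.squarefree⟩
    have hBN : B ∣ N := by
      rw [hN]
      split_ifs
      · exact dvd_rfl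
      · exact dvd_mul_right _ _
    have hpN : p ∣ N := by
      rw [hN]
      split_ifs with h
      · exact h
      · exact dvd_mul_left _ _
    obtain ⟨g', hg', hgg⟩ := ConductorLevel.exists_raise hNsq hBN hg
    refine hnot N hNsq hpN (fun v hv h => ((dvd_base_fixedOf hs C hM hsq hbig hv).2 h).trans hBN)
      ⟨g', hg', fun ℓ hℓ hgood hℓN => ?_⟩
    have hℓp : ℓ ≠ p := fun h => hℓN (h ▸ hpN)
    have hbad : ¬ ℓ ∣ (F₀).bad := by
      rw [← Levels.Fixed.base_top_mul]
      intro h
      rcases hℓ.dvd_mul.1 h with h | h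
      · exact hℓN (h.trans hBN)
      · exact hℓp ((Nat.prime_dvd_prime_iff_eq hℓ hp).1 h)
    obtain ⟨A, τ, hA, hτ, he⟩ := hno ℓ hℓ hbad
    rw [hgg ℓ hℓ hℓN, he, show ((F₀).rhoE τ).trace = _ from C.trGood ℓ hℓ hℓp hgood A hA τ hτ,
      map_intCast]

end

/-- **Milestone statement 59 at a level of ramified primes, from the lifting theorem over fixed
data.** -/
theorem liftInput_of (h : Levels.NotReadyInput) : LiftInput := by
  intro W p M hs hM hsq hbig
  have hp : p.Prime := hs.hp.1
  have hp2 : p ≠ 2 := hs.hp.2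
  have := Fact.mk hp
  have := Fact.mk hp2
  by_contra hno
  obtain ⟨O, _, _, _, _, _, _, _, -, -, hquad, -⟩ := Assembly.exists_coeff p
  letI : Algebra (ZMod p) (ResidueField O) := ZMod.algebra (ResidueField O) p
  obtain ⟨C⟩ := Curve.exists_curveRep W p hs.hΔ O hp2
  refine h O p (fixedOf hs C hM hsq hbig) (ready_fixedOf hs C hM hsq hbig (fun f hf => ?_)
    fun N hN hpN hbad hmod => hno ⟨N, Nat.pos_of_ne_zero hN.ne_zero, fun v hv hd => ?_, fun hd => ?_,
      hbad, hmod⟩)
  · obtain ⟨x, hx⟩ := hquad f hf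
    exact ⟨x, by rwa [show algebraMap (ZMod p) (ResidueField O) = ZMod.castHom (dvd_refl p) _
      from RingHom.ext_zmod _ _]⟩
  · exact hv.not_isUnit (hN v ((dvd_of_eq (by ring)).trans ((pow_dvd_pow v (show 2 ≤ 3 by norm_num)).trans hd)))
  · exact hp.not_isUnit (hN p ((dvd_of_eq (sq p).symm).trans hd))

/-- **The lifting stage.** -/
theorem liftInput : LiftInput :=
  liftInput_of Levels.notReadyInput

end Fermat.Agent.RT.Lift59

end
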