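import Fermat.Agent.RT.Lift59.Squarefree
import Fermat.Agent.RT.Lift59.Mazur.Main
import Fermat.Agent.RT.Lift59.AtP.Main
import Fermat.Agent.RT.Lift59.Scalar.Strict
import Fermat.Agent.ConductorLevel.Raise

/-!
# Removing an unramified prime from a squarefree level

The primes with a principle of Mazur are removed until the prime is one of them or only scalar
primes are left; then patching removes it and the level is raised back.
-/

set_option autoImplicit false

noncomputable section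

open WeierstrassCurve
open scoped WeierstrassCurve.Affine

namespace Fermat.Agent.RT.Lift59.Lower

/-- Residual modularity passes to squarefree multiples of the level. -/
theorem isResiduallyModularOfLevel_of_dvd {W : WeierstrassCurve ℤ} {p M' M : ℕ}
    (hsq : Squarefree M) (hd : M' ∣ M) (h : W.IsResiduallyModularOfLevel p M') :
    W.IsResiduallyModularOfLevel p M := by
  obtain ⟨g, 𝔪, hg, h𝔪, hp𝔪, hcong⟩ := h
  obtain ⟨g', hg', hgg⟩ := ConductorLevel.exists_raise hsq hd hg
  refine ⟨g', 𝔪, hg', h𝔪, hp𝔪, fun ℓ hℓ hgood hℓM hℓp => ?_⟩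
  obtain ⟨a, ha, ham⟩ := hcong ℓ hℓ hgood (fun h' => hℓM (h'.trans hd)) hℓp
  exact ⟨a, ha.trans (hgg ℓ hℓ hℓM).symm, ham⟩

/-- An unramified prime leaves a squarefree level, up to a divisor. -/
theorem exists_dvd_div {W : WeierstrassCurve ℤ} {p q : ℕ} (hs : Setting W p) (hq : q.Prime)
    (hqp : q ≠ p) (hsmall : SmallAt W p q) :
    ∀ N : ℕ, Squarefree N → W.IsResiduallyModularOfLevel p N → q ∣ N →
      ∃ M' : ℕ, M' ∣ N / q ∧ W.IsResiduallyModularOfLevel p M' := by
  classical
  intro N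
  induction N using Nat.strong_induction_on with
  | _ N ih =>
    intro hsq hres hqN
    have hseed := SeedLevel.of_squarefree hs.hp.1 hsq hres
    have step : ∀ v : ℕ, v.Prime → v ∣ N → W.IsResiduallyModularOfLevel p (N / v) →
        ∃ M' : ℕ, M' ∣ N / q ∧ W.IsResiduallyModularOfLevel p M' := by
      intro v hv hvN h
      by_cases hvq : v = q
      · subst hvq; exact ⟨_, dvd_rfl, h⟩
      obtain ⟨K, rfl⟩ := hvN
      rw [Nat.mul_div_cancel_left K hv.pos] at h
      have hqK : q ∣ K := (hq.dvd_mul.1 hqN).resolve_left fun hd =>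
        hvq ((Nat.prime_dvd_prime_iff_eq hq hv).1 hd).symm
      obtain ⟨M', hM', hres'⟩ := ih K (lt_mul_of_one_lt_left
        (Nat.pos_of_ne_zero (right_ne_zero_of_mul hsq.ne_zero)) hv.one_lt)
        (hsq.squarefree_of_dvd (dvd_mul_left K v)) h hqK
      exact ⟨M', by rw [Nat.mul_div_assoc v hqK]; exact hM'.trans (dvd_mul_left _ v), hres'⟩
    by_cases h2 : ∃ v : ℕ, v.Prime ∧ v ≠ p ∧ v ∣ N ∧ SmallAt W p v ∧ ¬ ScalarAt W p v
    · obtain ⟨v, hv, hvp, hvN, hsm, hns⟩ := h2
      exact step v hv hvN (MazurQ.mazurInput W p N v hs hseed hv hvp hvN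
        (fun hd => hv.not_isUnit (hsq v (by rwa [← sq]))) hsm hns)
    push Not at h2
    by_cases h3 : p ∣ N ∧ SmallAt W p p
    · exact step p hs.hp.1 h3.1 (AtP.atPInput W p N hs hseed hsq h3.1 h3.2)
    push Not at h3
    exact ⟨_, dvd_rfl, Scalar.scalarInput W p N q hs hseed hsq h2 h3 hq hqp hqN hsmall⟩

/-- **Level lowering at a squarefree level.** -/
theorem isResiduallyModularOfLevel_div {W : WeierstrassCurve ℤ} {p q : ℕ} [Fact p.Prime]
    (hp2 : p ≠ 2) (hΔ : W.Δ ≠ 0) (hW : W.IsSemistableModel) (hirr : W.ModRepIsIrreducible p)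
    (hq : q.Prime) (hqp : q ≠ p) (hunr : (EC.Rep.residualRep W p hΔ).IsUnramifiedAt q) {M : ℕ}
    (hM : Squarefree M) (hqM : q ∣ M) (hres : W.IsResiduallyModularOfLevel p M) :
    W.IsResiduallyModularOfLevel p (M / q) := by
  have hsmall : SmallAt W p q := by
    by_contra h
    obtain ⟨A, hA⟩ := Arith.exists_liesOverPrime hq
    obtain ⟨σ, hσ, hne⟩ :=
      exists_wRho_inertia_ne_one (k := ZMod p) (hΔ := hΔ) hp2 hW hq hqp h hA
    exact hne ((wRho_eq_one_iff σ).2 (hunr A hA σ hσ))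
  obtain ⟨M', hM', hres'⟩ :=
    exists_dvd_div ⟨⟨Fact.out, hp2⟩, hΔ, hW, hirr⟩ hq hqp hsmall M hM hres hqM
  exact isResiduallyModularOfLevel_of_dvd (hM.squarefree_of_dvd (Nat.div_dvd_of_dvd hqM)) hM' hres'

end Fermat.Agent.RT.Lift59.Lower

end
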