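import Fermat.Agent.RT.Lift59.Primes
import Fermat.Agent.RT.Strict.Proof
import Fermat.Agent.CFT.Tangent.OrdinaryBound

/-!
# Auxiliary primes for the tangent classes of the lifting argument: proof

The excesses are `0` at `Z`, `-3` at `V`, `-1` at `U` and, at `p`, `1` less what is saved.
-/

set_option autoImplicit false
set_option linter.style.haveILetI false

noncomputable section

namespace Fermat.Agent.RT.Lift59

open Fermat.Agent.Deform Fermat.Agent.CFT.Tangent Fermat.Agent.Arith Module Polynomial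
open Fermat.Agent.CFT.Wiles Fermat.Agent.RT.Strict Fermat.Agent.CFT.Idele

local instance factPrimePrimesProof (q : Nat.Primes) : Fact (q : ℕ).Prime := ⟨q.2⟩

variable {k : Type} [Field k] [Finite k] {r : Gal →* M2 k}

omit [Finite k] in
/-- At an unramified place something of trace zero is fixed. -/
theorem one_le_finrank_fixedOn {v : ℕ} [Fact v.Prime] (h2 : (2 : k) ≠ 0)
    (hr : GaloisFactorsThroughFiniteLevel r)
    (hI : ∀ τ ∈ (padicPlace v).inertiaSubgroupIn ℚ, r τ = 1) :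
    1 ≤ finrank k (fixedOn r ((padicPlace v).decompositionSubgroup ℚ)) := by
  by_cases hsc : ∀ F : Gal, (padicPlace v).IsFrobeniusAt F v → ∃ c : k, r F = c • 1
  · exact le_trans (by norm_num) (three_le_finrank_fixedOn h2 hr hI hsc)
  push Not at hsc
  obtain ⟨F, hFF, hF⟩ := hsc
  obtain ⟨L, hLf, hLn, hL⟩ := exists_common_level hr (⊥ : Submodule k (Gal → M2 k))
    (fun b hb => ⟨⊥, inferInstance, fun σ _ => by rw [(Submodule.mem_bot k).1 hb]; rfl⟩)
  set X : M2 k := r F - ((r F).trace / 2) • 1 with hX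
  have hX0 : X ≠ 0 := fun h => hF _ (sub_eq_zero.1 h)
  have hXc : Commute (r F) X :=
    (Commute.refl _).sub_right ((Commute.one_right _).smul_right _)
  refine Submodule.one_le_finrank_iff.2 ((Submodule.ne_bot_iff _).2 ⟨X, ⟨?_, fun s hs => ?_⟩, hX0⟩)
  · rw [hX, Matrix.trace_sub, Matrix.trace_smul, Matrix.trace_one, Fintype.card_fin, smul_eq_mul]
    push_cast
    field_simp
    ring
  · obtain ⟨i, τ, hτ, he⟩ := exists_frobenius_mul_inertia L hFF hs
    have e : r s = r F ^ i := by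
      rw [map_eq_of_agree (fun σ hσ => (hL σ hσ).1) he, map_mul, map_pow, hI τ hτ, mul_one]
    calc r s * X * r s⁻¹ = X * (r s * r s⁻¹) := by
          rw [← mul_assoc, e, (hXc.pow_left i).eq]
      _ = X := by rw [CFT.Tangent.map_mul_inv, mul_one]

theorem card_subtype_prime (s : Finset ℕ) (hs : ∀ v ∈ s, v.Prime) :
    (s.subtype Nat.Prime).card = s.card := by
  rw [Finset.card_subtype, Finset.filter_true_of_mem hs]

/-- **Auxiliary primes for the classes of the lifting argument.** -/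
theorem primesInput_of_node (hnode : Galois.NodeBoundInput) : PrimesInput := by
  intro k _ _ p _ _ hp2 r hr hrfin hcyc Z V U hZV hZU hVU hprime hunr hZ hVsc S'
  classical
  letI : Algebra (ZMod p) k := ZMod.algebra k p
  haveI : NeZero p := ⟨(Fact.out : p.Prime).ne_zero⟩
  obtain ⟨ζ, hζ⟩ := HasEnoughRootsOfUnity.exists_primitiveRoot QBar p
  let pp : Nat.Primes := ⟨p, Fact.out⟩
  let Z' : Finset Nat.Primes := Z.subtype Nat.Prime
  let V' : Finset Nat.Primes := V.subtype Nat.Prime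
  let U' : Finset Nat.Primes := U.subtype Nat.Prime
  have hZ' : ∀ ℓ : Nat.Primes, ℓ ∈ Z' ↔ (ℓ : ℕ) ∈ Z := fun ℓ => Finset.mem_subtype
  have hV' : ∀ ℓ : Nat.Primes, ℓ ∈ V' ↔ (ℓ : ℕ) ∈ V := fun ℓ => Finset.mem_subtype
  have hU' : ∀ ℓ : Nat.Primes, ℓ ∈ U' ↔ (ℓ : ℕ) ∈ U := fun ℓ => Finset.mem_subtype
  have hpp : ∀ v ∈ Z ∪ V ∪ U, v.Prime ∧ v ≠ p := hprime
  have hdZV : Disjoint Z' V' := Finset.disjoint_left.2 fun ℓ h h' =>
    Finset.disjoint_left.1 hZV ((hZ' ℓ).1 h) ((hV' ℓ).1 h')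
  have hdU : Disjoint (Z' ∪ V') U' := Finset.disjoint_left.2 fun ℓ h h' => by
    rcases Finset.mem_union.1 h with h | h
    · exact Finset.disjoint_left.1 hZU ((hZ' ℓ).1 h) ((hU' ℓ).1 h')
    · exact Finset.disjoint_left.1 hVU ((hV' ℓ).1 h) ((hU' ℓ).1 h')
  have hpS : pp ∉ Z' ∪ V' ∪ U' := by
    simp only [Finset.mem_union, hZ', hV', hU']
    intro h
    exact (hpp p (by simp only [Finset.mem_union]; exact h)).2 rfl
  set S₀ : Finset Nat.Primes := insert pp (Z' ∪ V' ∪ U') with hS₀def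
  have hmem : ∀ ℓ : Nat.Primes, ℓ ∉ S₀ →
      (ℓ : ℕ) ≠ p ∧ (ℓ : ℕ) ∉ Z ∧ (ℓ : ℕ) ∉ V ∧ (ℓ : ℕ) ∉ U := fun ℓ hℓ => by
    simp only [hS₀def, Finset.mem_insert, Finset.mem_union, not_or, hZ', hV', hU'] at hℓ
    exact ⟨fun e => hℓ.1 (Subtype.ext e), hℓ.2.1.1, hℓ.2.1.2, hℓ.2.2⟩
  have hS₀ : ∀ ℓ : Nat.Primes, ℓ ∉ S₀ →
      ∀ τ ∈ (padicPlace (ℓ : ℕ)).inertiaSubgroupIn ℚ, r τ = 1 := fun ℓ hℓ τ hτ =>
    hunr ℓ ℓ.2 (hmem ℓ hℓ).1 (hmem ℓ hℓ).2.1 _ (CFT.Local.padicPlace_liesOverPrime (ℓ : ℕ)) τ hτ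
  obtain ⟨R, hR⟩ := exists_primes_count hr hrfin hp2 hζ hcyc S₀ hS₀
  refine ⟨R, fun n => ?_⟩
  obtain ⟨q, hinj, hq, -, hfrob, hcount⟩ := hR n (S' ∪ (Z ∪ V ∪ U) ∪ {p})
  refine ⟨fun i => (q i : ℕ), fun i j e => hinj (Subtype.ext e), fun i => ?_,
    fun i A hA F hF => hfrob i A hA F hF, fun c hc W hWfin hW => ?_⟩
  · obtain ⟨h1, -, -, h4⟩ := hq i
    rw [Finset.mem_union, Finset.mem_union, Finset.mem_singleton, not_or, not_or] at h1
    exact ⟨(q i).2, h1.1.1, h1.1.2, h1.2, h4⟩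
  have hspace : IsClassSpace r S₀ q W := ⟨hW.cocycle, hW.level, hW.trace, hW.disjoint,
    fun ℓ hℓ hℓq b hb τ hτ =>
      hW.unramified b hb ℓ ℓ.2 (hmem ℓ hℓ).1 (hmem ℓ hℓ).2.1 (hmem ℓ hℓ).2.2.1 (hmem ℓ hℓ).2.2.2
        (fun i e => hℓq i (Subtype.ext e)) _ (CFT.Local.padicPlace_liesOverPrime (ℓ : ℕ)) τ hτ⟩
  have h2k : (2 : k) ≠ 0 := hr.two
  set e : Nat.Primes → ℤ := fun ℓ =>
    if ℓ = pp then 1 - (c.saved : ℤ) else if ℓ ∈ Z' then 0 else if ℓ ∈ V' then -3 else -1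
  have h := hcount W hspace e fun ℓ hℓ => by
    have hA := CFT.Local.padicPlace_liesOverPrime (ℓ : ℕ)
    by_cases hℓp : ℓ = pp
    · subst hℓp
      simp only [e, if_true]
      cases c with
      | flat =>
        simp only [AtP.saved, Nat.cast_zero, sub_zero]
        exact_mod_cast CFT.Flat.finrank_le_flat hp2 hrfin hcyc hr.split W hW.cocycle hW.level
          hW.trace fun b hbW hb0 => (hW.atP b hbW hb0).imp fun ρ h => h.imp fun B h => ⟨h.1, h.2.2⟩
      | strict =>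
        simp only [AtP.saved, Nat.cast_zero, sub_zero]
        exact_mod_cast finrank_le_ordinary hp2 h2k hrfin hcyc W hW.cocycle hW.level hW.atP
      | node τ =>
        simp only [AtP.saved, Nat.cast_one, sub_self, add_zero]
        exact_mod_cast hnode k p hp2 r hrfin hcyc τ hc.1 hc.2 W hW.cocycle hW.level
          (fun b hb hb0 => (hW.atP b hb hb0).1) fun b hb => by
            rcases eq_or_ne b 0 with rfl | hb0
            · rfl
            · exact (hW.atP b hb hb0).2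
    simp only [hS₀def, Finset.mem_insert, hℓp, false_or, Finset.mem_union] at hℓ
    simp only [e, if_neg hℓp]
    by_cases hℓZ : ℓ ∈ Z'
    · rw [if_pos hℓZ, add_zero]
      have hℓZ' := (hZ' ℓ).1 hℓZ
      exact_mod_cast finrank_le_unipotent p h2k (hpp ℓ (by simp [hℓZ'])).2 hrfin W hW.cocycle
        hW.level hW.trace (hZ ℓ hℓZ' _ hA).1 (hZ ℓ hℓZ' _ hA).2
        fun b hb => hW.unipotent b hb ℓ hℓZ' _ hA
    rw [if_neg hℓZ]
    have hℓnp : (ℓ : ℕ) ≠ p := fun e => hℓp (Subtype.ext e)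
    have hI := hunr ℓ ℓ.2 hℓnp (fun h => hℓZ ((hZ' ℓ).2 h)) _ hA
    by_cases hℓV : ℓ ∈ V'
    · rw [if_pos hℓV]
      have hℓV' := (hV' ℓ).1 hℓV
      have h3 : 3 ≤ finrank k (fixedOn r ((padicPlace (ℓ : ℕ)).decompositionSubgroup ℚ)) :=
        three_le_finrank_fixedOn h2k hrfin hI (hVsc ℓ hℓV' _ hA)
      have hall : (W ⊓ cobdOn r ((padicPlace (ℓ : ℕ)).decompositionSubgroup ℚ) :
          Submodule k (Gal → M2 k)) = W :=
        inf_eq_left.2 fun b hb => ⟨0, Matrix.trace_zero _ _, fun s hs => by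
          rw [hW.vanishing b hb ℓ hℓV' s hs, mul_zero, zero_mul, sub_zero]⟩
      rw [hall]
      omega
    rw [if_neg hℓV]
    have hℓU : (ℓ : ℕ) ∈ U := (hU' ℓ).1 (hℓ.resolve_left (not_or.2 ⟨hℓZ, hℓV⟩))
    have h1 := one_le_finrank_fixedOn (v := (ℓ : ℕ)) h2k hrfin hI
    have hall : (W ⊓ cobdOn r ((padicPlace (ℓ : ℕ)).decompositionSubgroup ℚ) :
        Submodule k (Gal → M2 k)) = W :=
      inf_eq_left.2 fun b hb => hW.trivial b hb ℓ hℓU
    rw [hall]
    omega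
  have hsum : ∀ s : Finset Nat.Primes, s ⊆ Z' ∪ V' ∪ U' → ∀ x : ℤ,
      (∀ ℓ ∈ s, (if ℓ ∈ Z' then (0 : ℤ) else if ℓ ∈ V' then -3 else -1) = x) →
      ∑ ℓ ∈ s, e ℓ = s.card * x := fun s hs x hx => by
    rw [Finset.sum_congr rfl fun ℓ (hℓ : ℓ ∈ s) => show e ℓ = x by
      simp only [e, if_neg (fun h : ℓ = pp => hpS (h ▸ hs hℓ))]; exact hx ℓ hℓ, Finset.sum_const,
      nsmul_eq_mul]
  rw [Finset.sum_insert hpS, Finset.sum_union hdU, Finset.sum_union hdZV,
    hsum Z' (fun ℓ h => by simp [h]) 0 fun ℓ h => if_pos h,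
    hsum V' (fun ℓ h => by simp [h]) (-3) fun ℓ h => by
      rw [if_neg (Finset.disjoint_right.1 hdZV h), if_pos h],
    hsum U' (fun ℓ h => by simp [h]) (-1) fun ℓ h => by
      have := Finset.disjoint_right.1 hdU h
      rw [Finset.mem_union, not_or] at this
      rw [if_neg this.1, if_neg this.2],
    show V'.card = V.card from card_subtype_prime V fun v h => (hpp v (by simp [h])).1,
    show U'.card = U.card from card_subtype_prime U fun v h => (hpp v (by simp [h])).1] at h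
  simp only [e, if_true] at h
  have h' : ((finrank k W : ℕ) : ℤ) + 3 * (V.card : ℤ) + (U.card : ℤ) + (c.saved : ℤ) ≤ (R : ℤ) := by
    linarith
  exact_mod_cast h'

end Fermat.Agent.RT.Lift59
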