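import Fermat.Agent.RT.Lift59.Compose
import Fermat.Agent.RT.Lift59.Mazur.Main
import Fermat.Agent.S58

/-!
# Modularity lifting from squarefree levels

For a squarefree level of residual modularity the reduction of square factors is not needed.
-/

set_option autoImplicit false

noncomputable section

open WeierstrassCurve

namespace Fermat.Agent.RT.Lift59

/-- Milestone statement 58 in the form used by the composition. -/
theorem conductorInput : ConductorInput := fun W hss N _ _ hp2 hirr hp2N hN hbad hN3 =>
  Fermat.Agent.S58.result W hss N _ hp2 hirr hp2N hN hbad hN3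

/-- A squarefree level is admissible. -/
theorem SeedLevel.of_squarefree {W : WeierstrassCurve ℤ} {p M : ℕ} (hp : p.Prime)
    (hsf : Squarefree M) (hres : W.IsResiduallyModularOfLevel p M) : SeedLevel W p M :=
  ⟨Nat.pos_of_ne_zero hsf.ne_zero, hres,
    fun hd => hp.one_lt.ne' (Nat.isUnit_iff.1 (hsf p (by rwa [← sq]))),
    fun q hq _ hd => hq.one_lt.ne' (Nat.isUnit_iff.1
      (hsf q ((mul_dvd_mul_left q (dvd_mul_right q q)).trans (by simpa [pow_succ, mul_assoc] using hd))))⟩

/-- **Modularity lifting from a squarefree level.** -/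
theorem modular_of_squarefree (hP : AtPInput) (hSc : ScalarInput) (hL : LiftInput)
    {W : WeierstrassCurve ℤ} {p : ℕ} (hs : Setting W p) {M₀ : ℕ} (hsf₀ : Squarefree M₀)
    (hres₀ : W.IsResiduallyModularOfLevel p M₀) :
    W.IsModularModelOfLevel W.conductorLevel := by
  have hpp : p.Prime := hs.hp.1
  have := Fact.mk hpp
  obtain ⟨M, -, hM, hsf, hram⟩ := exists_minimal_of_squarefree MazurQ.mazurInput hP hSc hs M₀
    (SeedLevel.of_squarefree hpp hsf₀ hres₀) hsf₀
  obtain ⟨N, hN0, hN3, hp2N, hbad, hmod⟩ := hL W p M hs hM hsf hram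
  exact conductorInput W hs.hW N p hs.hp.2 hs.hirr hp2N hmod
    hbad hN3

/-- The conclusion of milestone statement 59 from a squarefree level. -/
theorem exactConductorLevel_of_squarefree (hP : AtPInput) (hSc : ScalarInput) (hL : LiftInput)
    {W : WeierstrassCurve ℤ} {p : ℕ} (hs : Setting W p) {M₀ : ℕ} (hsf₀ : Squarefree M₀)
    (hres₀ : W.IsResiduallyModularOfLevel p M₀) :
    Mlc1IsModularModelOfExactConductorLevel W :=
  ⟨W.conductorLevel, W.conductorLevel_pos, W.squarefree_conductorLevel,
    fun _ hq => W.prime_dvd_conductorLevel_iff hs.hΔ hq,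
    modular_of_squarefree hP hSc hL hs hsf₀ hres₀⟩

end Fermat.Agent.RT.Lift59

end
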